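import Mathlib
import Fermat.Agent.S52.Fam.Defs

/-!
# S52 / B3n-fam (helper300): Bezout certificate for the twisted Klein form `Fk` and its derivative

`bzU * Fk + bzV * fkDer = 9674588160000 * (c₄³ - c₆²)⁴`  (polynomial identity over any commutative ring),
where `fkDer = d Fk / dτ`.  Found by exact linear algebra (isobaric weight 48, minimal).
Consequence (`Squarefree.lean`): over a field of characteristic `0`, `Fk` is separable in `τ` as soon as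
`c₄³ ≠ c₆²`.
-/

set_option autoImplicit false
set_option linter.unusedVariables false

namespace Fermat.Agent.S52.B3.H300

open Fermat.Agent.S52.Fam

variable {R : Type*} [CommRing R]

/-- `d Fk / dτ`. -/
def fkDer (c₄ c₆ τ : R) : R :=
  2 * Fk_2 c₄ c₆ * τ
  + 3 * Fk_3 c₄ c₆ * τ^2
  + 4 * Fk_4 c₄ c₆ * τ^3
  + 5 * Fk_5 c₄ c₆ * τ^4
  + 6 * Fk_6 c₄ c₆ * τ^5
  + 7 * Fk_7 c₄ c₆ * τ^6
  + 8 * Fk_8 c₄ c₆ * τ^7
  + 9 * Fk_9 c₄ c₆ * τ^8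
  + 10 * Fk_10 c₄ c₆ * τ^9
  + 11 * Fk_11 c₄ c₆ * τ^10
  + 12 * Fk_12 c₄ c₆ * τ^11

/-- coefficient of `τ^0` in `bzU`. -/
def bzU_0 (c₄ c₆ : R) : R := 9674588160000*c₄^12 - 38698352640000*c₄^9*c₆^2 + 58047528960000*c₄^6*c₆^4 - 38698352640000*c₄^3*c₆^6 + 9674588160000*c₆^8

/-- coefficient of `τ^1` in `bzU`. -/
def bzU_1 (c₄ c₆ : R) : R := 19703440795500*c₄^11*c₆ - 58892326352640*c₄^8*c₆^3 + 58673623117824*c₄^5*c₆^5 - 19484737536000*c₄^2*c₆^7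

/-- coefficient of `τ^2` in `bzU`. -/
def bzU_2 (c₄ c₆ : R) : R := 177445935562500*c₄^13 - 584558728716600*c₄^10*c₆^2 + 690754208196096*c₄^7*c₆^4 - 337622107299840*c₄^4*c₆^6 + 53980692480000*c₄*c₆^8

/-- coefficient of `τ^3` in `bzU`. -/
def bzU_3 (c₄ c₆ : R) : R := 762539299830000*c₄^12*c₆ - 2641153957548480*c₄^9*c₆^3 + 3354537623906304*c₄^6*c₆^5 - 1835794248499200*c₄^3*c₆^7 + 359871283200000*c₆^9

/-- coefficient of `τ^4` in `bzU`. -/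
def bzU_4 (c₄ c₆ : R) : R := -824995722375000*c₄^14 + 4062138311781000*c₄^11*c₆^2 - 7222918919477184*c₄^8*c₆^4 + 5559352446320640*c₄^5*c₆^6 - 1573576114176000*c₄^2*c₆^8

/-- coefficient of `τ^5` in `bzU`. -/
def bzU_5 (c₄ c₆ : R) : R := -1413127305315000*c₄^13*c₆ + 6596059249375200*c₄^10*c₆^3 - 11290593157595136*c₄^7*c₆^5 + 8445440437125120*c₄^4*c₆^7 - 2337779220480000*c₄*c₆^9

/-- coefficient of `τ^6` in `bzU`. -/
def bzU_6 (c₄ c₆ : R) : R := 19475452606500000*c₄^15 - 84702635098587000*c₄^12*c₆^2 + 145064710524856320*c₄^9*c₆^4 - 121715998397300736*c₄^6*c₆^6 + 49671067769241600*c₄^3*c₆^8 - 7792597401600000*c₆^10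

/-- coefficient of `τ^7` in `bzU`. -/
def bzU_7 (c₄ c₆ : R) : R := 36179094961350000*c₄^14*c₆ - 143569885311705600*c₄^11*c₆^3 + 213643381196906496*c₄^8*c₆^5 - 141293534513725440*c₄^5*c₆^7 + 35040943669248000*c₄^2*c₆^9

/-- coefficient of `τ^8` in `bzU`. -/
def bzU_8 (c₄ c₆ : R) : R := 45279769651875000*c₄^16 - 183463937131365000*c₄^13*c₆^2 + 282102183922648320*c₄^10*c₆^4 - 198319981513015296*c₄^7*c₆^6 + 57790291614105600*c₄^4*c₆^8 - 3388326543360000*c₄*c₆^10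

/-- coefficient of `τ^9` in `bzU`. -/
def bzU_9 (c₄ c₆ : R) : R := 30466017852187500*c₄^15*c₆ - 128859171247620000*c₄^12*c₆^3 + 211309731057401856*c₄^9*c₆^5 - 165435639083827200*c₄^6*c₆^7 + 60048675962880000*c₄^3*c₆^9 - 7529614540800000*c₆^11

/-- coefficient of `τ^10` in `bzU`. -/
def bzU_10 (c₄ c₆ : R) : R := -37733141376562500*c₄^17 + 192463244765550000*c₄^14*c₆^2 - 392404198146048000*c₄^11*c₆^4 + 399764106976886784*c₄^8*c₆^6 - 203502892194201600*c₄^5*c₆^8 + 41412879974400000*c₄^2*c₆^10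

/-- Bezout cofactor `bzU`. -/
def bzU (c₄ c₆ τ : R) : R :=
  bzU_0 c₄ c₆
  + bzU_1 c₄ c₆ * τ
  + bzU_2 c₄ c₆ * τ^2
  + bzU_3 c₄ c₆ * τ^3
  + bzU_4 c₄ c₆ * τ^4
  + bzU_5 c₄ c₆ * τ^5
  + bzU_6 c₄ c₆ * τ^6
  + bzU_7 c₄ c₆ * τ^7
  + bzU_8 c₄ c₆ * τ^8
  + bzU_9 c₄ c₆ * τ^9
  + bzU_10 c₄ c₆ * τ^10

/-- coefficient of `τ^0` in `bzV`. -/
def bzV_0 (c₄ c₆ : R) : R := 149268490875*c₄^10*c₆ - 446153987520*c₄^7*c₆^3 + 444497144832*c₄^4*c₆^5 - 147611648000*c₄*c₆^7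

/-- coefficient of `τ^1` in `bzV`. -/
def bzV_1 (c₄ c₆ : R) : R := -3493006689375*c₄^12 + 13428016193700*c₄^9*c₆^2 - 19329238179072*c₄^6*c₆^4 + 12346461634560*c₄^3*c₆^6 - 2952232960000*c₆^8

/-- coefficient of `τ^2` in `bzV`. -/
def bzV_2 (c₄ c₆ : R) : R := -8110549915875*c₄^11*c₆ + 24228697375080*c₄^8*c₆^3 - 24125400668160*c₄^5*c₆^5 + 8007253196800*c₄^2*c₆^7

/-- coefficient of `τ^3` in `bzV`. -/
def bzV_3 (c₄ c₆ : R) : R := -46626751153125*c₄^13 + 151664022199800*c₄^10*c₆^2 - 175755910302720*c₄^7*c₆^4 + 83028659281920*c₄^4*c₆^6 - 12310020096000*c₄*c₆^8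

/-- coefficient of `τ^4` in `bzV`. -/
def bzV_4 (c₄ c₆ : R) : R := -146609883461250*c₄^12*c₆ + 499971355781040*c₄^9*c₆^3 - 621657733340160*c₄^6*c₆^5 + 329846361292800*c₄^3*c₆^7 - 61550100480000*c₆^9

/-- coefficient of `τ^5` in `bzV`. -/
def bzV_5 (c₄ c₆ : R) : R := 154220856693750*c₄^14 - 747467505130500*c₄^11*c₆^2 + 1314666513623232*c₄^8*c₆^4 - 1003804200419328*c₄^5*c₆^6 + 282384334848000*c₄^2*c₆^8

/-- coefficient of `τ^6` in `bzV`. -/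
def bzV_6 (c₄ c₆ : R) : R := 168031679681250*c₄^13*c₆ - 809690851431000*c₄^10*c₆^3 + 1418074733408256*c₄^7*c₆^5 - 1079191882137600*c₄^4*c₆^7 + 302776320000000*c₄*c₆^9

/-- coefficient of `τ^7` in `bzV`. -/
def bzV_7 (c₄ c₆ : R) : R := -2408673294843750*c₄^15 + 10371957292867500*c₄^12*c₆^2 - 17531072621568000*c₄^9*c₆^4 + 14446051484958720*c₄^6*c₆^6 - 5743338061824000*c₄^3*c₆^8 + 865075200000000*c₆^10

/-- coefficient of `τ^8` in `bzV`. -/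
def bzV_8 (c₄ c₆ : R) : R := -4104061426265625*c₄^14*c₆ + 16284893655096000*c₄^11*c₆^3 - 24231233957990400*c₄^8*c₆^5 + 16024038152601600*c₄^5*c₆^7 - 3973636423680000*c₄^2*c₆^9

/-- coefficient of `τ^9` in `bzV`. -/
def bzV_9 (c₄ c₆ : R) : R := -4541952202734375*c₄^16 + 18375263448300000*c₄^13*c₆^2 - 28187868347654400*c₄^10*c₆^4 + 19731491121070080*c₄^7*c₆^6 - 5690667958272000*c₄^4*c₆^8 + 313733939200000*c₄*c₆^10

/-- coefficient of `τ^10` in `bzV`. -/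
def bzV_10 (c₄ c₆ : R) : R := -2715854496609375*c₄^15*c₆ + 11441889300600000*c₄^12*c₆^3 - 18657888915714048*c₄^9*c₆^5 + 14480996230103040*c₄^6*c₆^7 - 5176609996800000*c₄^3*c₆^9 + 627467878400000*c₆^11

/-- coefficient of `τ^11` in `bzV`. -/
def bzV_11 (c₄ c₆ : R) : R := 3144428448046875*c₄^17 - 16038603730462500*c₄^14*c₆^2 + 32700349845504000*c₄^11*c₆^4 - 33313675581407232*c₄^8*c₆^6 + 16958574349516800*c₄^5*c₆^8 - 3451073331200000*c₄^2*c₆^10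

/-- Bezout cofactor `bzV`. -/
def bzV (c₄ c₆ τ : R) : R :=
  bzV_0 c₄ c₆
  + bzV_1 c₄ c₆ * τ
  + bzV_2 c₄ c₆ * τ^2
  + bzV_3 c₄ c₆ * τ^3
  + bzV_4 c₄ c₆ * τ^4
  + bzV_5 c₄ c₆ * τ^5
  + bzV_6 c₄ c₆ * τ^6
  + bzV_7 c₄ c₆ * τ^7
  + bzV_8 c₄ c₆ * τ^8
  + bzV_9 c₄ c₆ * τ^9
  + bzV_10 c₄ c₆ * τ^10
  + bzV_11 c₄ c₆ * τ^11

/-- **Bezout certificate** for `Fk` and `d Fk / dτ`. -/
theorem bezout_Fk (c₄ c₆ τ : R) :
    bzU c₄ c₆ τ * Fk c₄ c₆ τ + bzV c₄ c₆ τ * fkDer c₄ c₆ τ =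
      9674588160000 * (c₄ ^ 3 - c₆ ^ 2) ^ 4 := by
  simp only [bzU, bzV, fkDer, Fk, bzU_0, bzU_1, bzU_2, bzU_3, bzU_4, bzU_5, bzU_6, bzU_7, bzU_8, bzU_9, bzU_10, bzV_0, bzV_1, bzV_2, bzV_3, bzV_4, bzV_5, bzV_6, bzV_7, bzV_8, bzV_9, bzV_10, bzV_11, Fk_0, Fk_2, Fk_3, Fk_4, Fk_5, Fk_6, Fk_7, Fk_8, Fk_9, Fk_10, Fk_11, Fk_12]
  ring

end Fermat.Agent.S52.B3.H300
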