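import Fermat.Agent.S52.B3.H300.Cert

/-!
# S52 / B3n-fam (helper300): the twisted Klein form `Fk` is separable, of degree `12`

For a field `k` in which `2, 3, 5, 7` are invertible (e.g. characteristic `0`) and `c₄³ ≠ c₆²`,
the polynomial `Fk (C c₄) (C c₆) X ∈ k[X]` is separable, hence squarefree (`squarefree_fkPoly`).
Over `ℚ` its degree is exactly `12` as soon as `(c₄, c₆) ≠ (0, 0)` (`natDegree_fkPoly_rat`): the
leading coefficient is `91125c₄⁶ - 193536c₄³c₆² + 102400c₆⁴`, a binary quadratic form in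
`(c₄³, c₆²)` of discriminant `11·(2⁷3³)²`.
-/

set_option autoImplicit false

open Polynomial

namespace Fermat.Agent.S52.B3.H300

open Fermat.Agent.S52.Fam

section field

variable {k : Type*} [Field k]

/-- The twisted Klein form as a polynomial in `τ = X`. -/
noncomputable def fkPoly (c₄ c₆ : k) : k[X] := Fk (C c₄) (C c₆) X

lemma derivative_fkPoly (c₄ c₆ : k) :
    derivative (fkPoly c₄ c₆) = fkDer (C c₄) (C c₆) X := by
  simp only [fkPoly, Fk, Fk_0, Fk_2, Fk_3, Fk_4, Fk_5, Fk_6, Fk_7, Fk_8, Fk_9, Fk_10, Fk_11,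
    Fk_12, fkDer, ← map_pow, ← map_mul, ← map_sub, ← map_ofNat (C : k →+* k[X]), ← map_neg,
    derivative_add, derivative_one, derivative_X_pow, derivative_C, derivative_mul]
  simp only [map_pow, map_mul, map_sub, map_neg, map_ofNat, Nat.cast_ofNat]
  ring

lemma eval_fkPoly (c₄ c₆ t : k) : (fkPoly c₄ c₆).eval t = Fk c₄ c₆ t := by
  simp only [fkPoly, Fk, Fk_0, Fk_2, Fk_3, Fk_4, Fk_5, Fk_6, Fk_7, Fk_8, Fk_9, Fk_10, Fk_11,
    Fk_12, eval_add, eval_mul, eval_sub, eval_pow, eval_C, eval_X, eval_one, eval_neg,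
    eval_ofNat]

/-- **Bezout identity in `k[X]`.** -/
lemma bezout_fkPoly (c₄ c₆ : k) :
    bzU (C c₄) (C c₆) X * fkPoly c₄ c₆ + bzV (C c₄) (C c₆) X * derivative (fkPoly c₄ c₆) =
      C (9674588160000 * (c₄ ^ 3 - c₆ ^ 2) ^ 4) := by
  rw [derivative_fkPoly, fkPoly, bezout_Fk]
  simp only [map_pow, map_mul, map_sub, map_ofNat]

/-- `Fk` and its derivative are coprime when `c₄³ ≠ c₆²` (and `9674588160000 ≠ 0` in `k`). -/
theorem isCoprime_fkPoly_derivative (c₄ c₆ : k) (hκ : (9674588160000 : k) ≠ 0)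
    (h : c₄ ^ 3 ≠ c₆ ^ 2) : IsCoprime (fkPoly c₄ c₆) (derivative (fkPoly c₄ c₆)) := by
  have hd : (9674588160000 * (c₄ ^ 3 - c₆ ^ 2) ^ 4 : k) ≠ 0 :=
    mul_ne_zero hκ (pow_ne_zero _ (sub_ne_zero.mpr h))
  refine ⟨C (9674588160000 * (c₄ ^ 3 - c₆ ^ 2) ^ 4)⁻¹ * bzU (C c₄) (C c₆) X,
    C (9674588160000 * (c₄ ^ 3 - c₆ ^ 2) ^ 4)⁻¹ * bzV (C c₄) (C c₆) X, ?_⟩
  rw [mul_assoc, mul_assoc, ← mul_add, bezout_fkPoly, ← C_mul, inv_mul_cancel₀ hd, C_1]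

/-- `Fk` is separable in `τ` when `c₄³ ≠ c₆²`. -/
theorem separable_fkPoly (c₄ c₆ : k) (hκ : (9674588160000 : k) ≠ 0) (h : c₄ ^ 3 ≠ c₆ ^ 2) :
    (fkPoly c₄ c₆).Separable :=
  (Polynomial.separable_def _).mpr (isCoprime_fkPoly_derivative c₄ c₆ hκ h)

/-- `Fk` is squarefree in `τ` when `c₄³ ≠ c₆²`. -/
theorem squarefree_fkPoly (c₄ c₆ : k) (hκ : (9674588160000 : k) ≠ 0) (h : c₄ ^ 3 ≠ c₆ ^ 2) :
    Squarefree (fkPoly c₄ c₆) :=
  (separable_fkPoly c₄ c₆ hκ h).squarefree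

/-- `Fk` as a polynomial with explicit constant coefficients. -/
lemma fkPoly_eq (c₄ c₆ : k) :
    fkPoly c₄ c₆ = C (Fk_0 c₄ c₆) + C (Fk_2 c₄ c₆) * X ^ 2 + C (Fk_3 c₄ c₆) * X ^ 3
      + C (Fk_4 c₄ c₆) * X ^ 4 + C (Fk_5 c₄ c₆) * X ^ 5 + C (Fk_6 c₄ c₆) * X ^ 6
      + C (Fk_7 c₄ c₆) * X ^ 7 + C (Fk_8 c₄ c₆) * X ^ 8 + C (Fk_9 c₄ c₆) * X ^ 9
      + C (Fk_10 c₄ c₆) * X ^ 10 + C (Fk_11 c₄ c₆) * X ^ 11 + C (Fk_12 c₄ c₆) * X ^ 12 := by
  simp only [fkPoly, Fk, Fk_0, Fk_2, Fk_3, Fk_4, Fk_5, Fk_6, Fk_7, Fk_8, Fk_9, Fk_10, Fk_11,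
    Fk_12, map_pow, map_mul, map_sub, map_neg, map_ofNat, map_add, map_one]

lemma coeff_fkPoly_twelve (c₄ c₆ : k) : (fkPoly c₄ c₆).coeff 12 = Fk_12 c₄ c₆ := by
  rw [fkPoly_eq]
  simp only [coeff_add, coeff_C_mul, coeff_X_pow, coeff_C]
  norm_num

lemma natDegree_fkPoly_le (c₄ c₆ : k) : (fkPoly c₄ c₆).natDegree ≤ 12 := by
  rw [fkPoly_eq]
  compute_degree

lemma natDegree_fkPoly (c₄ c₆ : k) (h : Fk_12 c₄ c₆ ≠ 0) : (fkPoly c₄ c₆).natDegree = 12 := by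
  refine le_antisymm (natDegree_fkPoly_le c₄ c₆) ?_
  apply le_natDegree_of_ne_zero
  rwa [coeff_fkPoly_twelve]

end field

section rat

/-- The leading coefficient of `Fk` does not vanish over `ℚ` unless `c₄ = c₆ = 0`
(`√11` is irrational). -/
theorem Fk_12_ne_zero_rat (c₄ c₆ : ℚ) (h : c₄ ≠ 0 ∨ c₆ ≠ 0) : Fk_12 c₄ c₆ ≠ 0 := by
  intro h0
  simp only [Fk_12] at h0
  -- `(2·91125 u - 193536 v)² = 11·(2⁷3³)² v²`, `u = c₄³`, `v = c₆²`
  have key : (182250 * c₄ ^ 3 - 193536 * c₆ ^ 2) ^ 2 = 11 * (3456 * c₆ ^ 2) ^ 2 := by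
    linear_combination (364500 : ℚ) * h0
  by_cases hv : c₆ = 0
  · subst hv
    have hc4 : c₄ ≠ 0 := by
      rcases h with h | h
      · exact h
      · exact absurd rfl h
    have : (182250 * c₄ ^ 3) ^ 2 = 0 := by
      have := key
      simp only [ne_eq, OfNat.ofNat_ne_zero, not_false_eq_true, zero_pow, mul_zero, sub_zero]
        at this
      exact this
    have h3 : c₄ ^ 3 = 0 := by
      have := pow_eq_zero_iff (n := 2) (by norm_num) |>.mp this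
      simpa using this
    exact hc4 (pow_eq_zero_iff (n := 3) (by norm_num) |>.mp h3)
  · have hv2 : (3456 * c₆ ^ 2 : ℚ) ≠ 0 := mul_ne_zero (by norm_num) (pow_ne_zero _ hv)
    have hsq : ((182250 * c₄ ^ 3 - 193536 * c₆ ^ 2) / (3456 * c₆ ^ 2)) ^ 2 = 11 := by
      rw [div_pow, key]
      field_simp
    have hirr : Irrational (√(11 : ℝ)) := by
      have hp : Nat.Prime 11 := by norm_num
      simpa using hp.irrational_sqrt
    apply hirr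
    set q : ℚ := (182250 * c₄ ^ 3 - 193536 * c₆ ^ 2) / (3456 * c₆ ^ 2) with hq
    have hqr : ((q : ℝ)) ^ 2 = 11 := by exact_mod_cast hsq
    have habs : √(11 : ℝ) = |(q : ℝ)| := by
      rw [← hqr, Real.sqrt_sq_eq_abs]
    rw [habs]
    rcases abs_choice (q : ℝ) with h1 | h1
    · exact ⟨q, h1.symm⟩
    · exact ⟨-q, by rw [h1]; push_cast; ring⟩

theorem natDegree_fkPoly_rat (c₄ c₆ : ℚ) (h : c₄ ^ 3 ≠ c₆ ^ 2) :
    (fkPoly c₄ c₆).natDegree = 12 := by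
  apply natDegree_fkPoly
  apply Fk_12_ne_zero_rat
  by_contra hcon
  push Not at hcon
  apply h
  rw [hcon.1, hcon.2]
  norm_num

theorem squarefree_fkPoly_rat (c₄ c₆ : ℚ) (h : c₄ ^ 3 ≠ c₆ ^ 2) :
    Squarefree (fkPoly c₄ c₆) :=
  squarefree_fkPoly c₄ c₆ (by norm_num) h

end rat

end Fermat.Agent.S52.B3.H300
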