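import Fermat.Agent.S52.B3.H396.NoPolyRootAbs
import Fermat.Agent.S52.Fam.Syz
import Fermat.Agent.S52.B3.H300.Squarefree

/-!
# S52 / B3n-fam (helper300): the `ψ₃`-quartic of the explicit 5-congruent family has no
polynomial root

`noPolyRoot_fam (c₄ c₆ : ℤ) (h : c₄³ ≠ c₆²) :
   NoPolyRoot (famA (c4Poly c₄ c₆)) (famB (c6Poly c₄ c₆))`,
where `c4Poly c₄ c₆ = Fam.C4 (C c₄) (C c₆) X ∈ ℤ[X]` (canonical family data of helper952).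

Route: Bezout certificate `bzU·Fk + bzV·Fk' = κ(c₄³ - c₆²)⁴` (`Cert.lean`) ⇒ `Fk` squarefree over
`ℚ`; `deg Fk = 12` (`√11 ∉ ℚ`); syzygy (landed `Fam.syzygy`); abstract B3n (landed, helper396).
-/

set_option autoImplicit false

open Polynomial

namespace Fermat.Agent.S52.B3.H300

open Fermat.Agent.S52.Fam Fermat.Agent.S52.B3

section general

variable {R : Type*} [CommRing R]

/-- The `c₄`-polynomial of the family, in `τ = X`. -/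
noncomputable def c4Poly (c₄ c₆ : R) : R[X] := C4 (C c₄) (C c₆) X

/-- The `c₆`-polynomial of the family, in `τ = X`. -/
noncomputable def c6Poly (c₄ c₆ : R) : R[X] := C6 (C c₄) (C c₆) X

lemma c4Poly_eq (c₄ c₆ : R) :
    c4Poly c₄ c₆ = C (C4_0 c₄ c₆) + C (C4_1 c₄ c₆) * X + C (C4_2 c₄ c₆) * X ^ 2 + C (C4_3 c₄ c₆) * X ^ 3 + C (C4_4 c₄ c₆) * X ^ 4 + C (C4_5 c₄ c₆) * X ^ 5 + C (C4_6 c₄ c₆) * X ^ 6 + C (C4_7 c₄ c₆) * X ^ 7 + C (C4_8 c₄ c₆) * X ^ 8 + C (C4_9 c₄ c₆) * X ^ 9 + C (C4_10 c₄ c₆) * X ^ 10 + C (C4_11 c₄ c₆) * X ^ 11 + C (C4_12 c₄ c₆) * X ^ 12 + C (C4_13 c₄ c₆) * X ^ 13 + C (C4_14 c₄ c₆) * X ^ 14 + C (C4_15 c₄ c₆) * X ^ 15 + C (C4_16 c₄ c₆) * X ^ 16 + C (C4_17 c₄ c₆) * X ^ 17 + C (C4_18 c₄ c₆) * X ^ 18 + C (C4_19 c₄ c₆) * X ^ 19 + C (C4_20 c₄ c₆) * X ^ 20 := by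
  simp only [c4Poly, C4, C4_0, C4_1, C4_2, C4_3, C4_4, C4_5, C4_6, C4_7, C4_8, C4_9, C4_10, C4_11, C4_12, C4_13, C4_14, C4_15, C4_16, C4_17, C4_18, C4_19, C4_20, map_pow, map_mul, map_sub, map_neg, map_ofNat, map_add]

lemma c6Poly_eq (c₄ c₆ : R) :
    c6Poly c₄ c₆ = C (C6_0 c₄ c₆) + C (C6_1 c₄ c₆) * X + C (C6_2 c₄ c₆) * X ^ 2 + C (C6_3 c₄ c₆) * X ^ 3 + C (C6_4 c₄ c₆) * X ^ 4 + C (C6_5 c₄ c₆) * X ^ 5 + C (C6_6 c₄ c₆) * X ^ 6 + C (C6_7 c₄ c₆) * X ^ 7 + C (C6_8 c₄ c₆) * X ^ 8 + C (C6_9 c₄ c₆) * X ^ 9 + C (C6_10 c₄ c₆) * X ^ 10 + C (C6_11 c₄ c₆) * X ^ 11 + C (C6_12 c₄ c₆) * X ^ 12 + C (C6_13 c₄ c₆) * X ^ 13 + C (C6_14 c₄ c₆) * X ^ 14 + C (C6_15 c₄ c₆) * X ^ 15 + C (C6_16 c₄ c₆) * X ^ 16 + C (C6_17 c₄ c₆) * X ^ 17 + C (C6_18 c₄ c₆) * X ^ 18 + C (C6_19 c₄ c₆) * X ^ 19 + C (C6_20 c₄ c₆) * X ^ 20 + C (C6_21 c₄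 c₆) * X ^ 21 + C (C6_22 c₄ c₆) * X ^ 22 + C (C6_23 c₄ c₆) * X ^ 23 + C (C6_24 c₄ c₆) * X ^ 24 + C (C6_25 c₄ c₆) * X ^ 25 + C (C6_26 c₄ c₆) * X ^ 26 + C (C6_27 c₄ c₆) * X ^ 27 + C (C6_28 c₄ c₆) * X ^ 28 + C (C6_29 c₄ c₆) * X ^ 29 + C (C6_30 c₄ c₆) * X ^ 30 := by
  simp only [c6Poly, C6, C6_0, C6_1, C6_2, C6_3, C6_4, C6_5, C6_6, C6_7, C6_8, C6_9, C6_10, C6_11, C6_12, C6_13, C6_14, C6_15, C6_16, C6_17, C6_18, C6_19, C6_20, C6_21, C6_22, C6_23, C6_24, C6_25, C6_26, C6_27, C6_28, C6_29, C6_30, map_pow, map_mul, map_sub, map_neg, map_ofNat, map_add]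

lemma natDegree_c4Poly_le (c₄ c₆ : R) : (c4Poly c₄ c₆).natDegree ≤ 20 := by
  rw [c4Poly_eq]
  compute_degree

lemma natDegree_c6Poly_le (c₄ c₆ : R) : (c6Poly c₄ c₆).natDegree ≤ 30 := by
  rw [c6Poly_eq]
  compute_degree

lemma coeff_c4Poly_zero (c₄ c₆ : R) : (c4Poly c₄ c₆).coeff 0 = c₄ := by
  rw [c4Poly_eq]
  simp [C4_0]

lemma coeff_c6Poly_zero (c₄ c₆ : R) : (c6Poly c₄ c₆).coeff 0 = c₆ := by
  rw [c6Poly_eq]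
  simp [C6_0]

lemma coeff_c4Poly_one (c₄ c₆ : R) : (c4Poly c₄ c₆).coeff 1 = 20 * c₆ := by
  rw [c4Poly_eq]
  simp [C4_1, coeff_X_pow]

variable {S : Type*} [CommRing S]

lemma map_c4Poly (f : R →+* S) (c₄ c₆ : R) : (c4Poly c₄ c₆).map f = c4Poly (f c₄) (f c₆) := by
  rw [c4Poly_eq, c4Poly_eq]
  simp only [Polynomial.map_add, Polynomial.map_mul, Polynomial.map_pow, Polynomial.map_C,
    Polynomial.map_X]
  simp only [C4_0, C4_1, C4_2, C4_3, C4_4, C4_5, C4_6, C4_7, C4_8, C4_9, C4_10, C4_11, C4_12, C4_13, C4_14, C4_15, C4_16, C4_17, C4_18, C4_19, C4_20, map_add, map_mul, map_pow, map_sub, map_neg, map_ofNat]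

lemma map_c6Poly (f : R →+* S) (c₄ c₆ : R) : (c6Poly c₄ c₆).map f = c6Poly (f c₄) (f c₆) := by
  rw [c6Poly_eq, c6Poly_eq]
  simp only [Polynomial.map_add, Polynomial.map_mul, Polynomial.map_pow, Polynomial.map_C,
    Polynomial.map_X]
  simp only [C6_0, C6_1, C6_2, C6_3, C6_4, C6_5, C6_6, C6_7, C6_8, C6_9, C6_10, C6_11, C6_12, C6_13, C6_14, C6_15, C6_16, C6_17, C6_18, C6_19, C6_20, C6_21, C6_22, C6_23, C6_24, C6_25, C6_26, C6_27, C6_28, C6_29, C6_30, map_add, map_mul, map_pow, map_sub, map_neg, map_ofNat]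

end general

/-- The syzygy in `ℚ[X]`. -/
lemma syzygy_poly (c₄ c₆ : ℚ) :
    c4Poly c₄ c₆ ^ 3 - c6Poly c₄ c₆ ^ 2 = C (c₄ ^ 3 - c₆ ^ 2) * fkPoly c₄ c₆ ^ 5 := by
  have h := syzygy (C c₄ : ℚ[X]) (C c₆) X
  simp only [c4Poly, c6Poly, fkPoly, map_sub, map_pow]
  exact h

/-- **B3n-fam over `ℚ`.** -/
theorem noPolyRoot_fam_rat (c₄ c₆ : ℚ) (h : c₄ ^ 3 ≠ c₆ ^ 2) :
    NoPolyRoot (C (-27 : ℚ) * c4Poly c₄ c₆) (C (-54 : ℚ) * c6Poly c₄ c₆) := by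
  have hd : (-78732 * (c₄ ^ 3 - c₆ ^ 2) : ℚ) ≠ 0 :=
    mul_ne_zero (by norm_num) (sub_ne_zero.mpr h)
  have hdegF := natDegree_fkPoly_rat c₄ c₆ h
  refine H396.noPolyRootAbs _ _ (fkPoly c₄ c₆) (-78732 * (c₄ ^ 3 - c₆ ^ 2)) hd ?_
    (squarefree_fkPoly_rat c₄ c₆ h) ?_ (by rw [hdegF]; norm_num) ?_
  · have hs := syzygy_poly c₄ c₆
    have e27 : (C (-27 : ℚ) : ℚ[X]) = -27 := by rw [C_neg, map_ofNat]
    have e54 : (C (-54 : ℚ) : ℚ[X]) = -54 := by rw [C_neg, map_ofNat]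
    have ek : (C (-78732 * (c₄ ^ 3 - c₆ ^ 2)) : ℚ[X]) = -78732 * C (c₄ ^ 3 - c₆ ^ 2) := by
      rw [C_mul, C_neg, map_ofNat]
    rw [e27, e54, ek]
    linear_combination (-78732 : ℚ[X]) * hs
  · rw [hdegF]
    have h1 : (C (-27 : ℚ) * c4Poly c₄ c₆).natDegree ≤ 20 :=
      (natDegree_C_mul_le _ _).trans (natDegree_c4Poly_le c₄ c₆)
    omega
  · intro h0
    have e0 := congrArg (fun p : ℚ[X] => p.coeff 0) h0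
    have e1 := congrArg (fun p : ℚ[X] => p.coeff 1) h0
    simp only [coeff_C_mul, coeff_c4Poly_zero, coeff_c4Poly_one, coeff_zero] at e0 e1
    have hc4 : c₄ = 0 := by linarith
    have hc6 : c₆ = 0 := by linarith
    apply h
    rw [hc4, hc6]
    norm_num

/-- **B3n-fam** (squad S52/S60 leaf): for integers `c₄³ ≠ c₆²`, the `ψ₃`-quartic of the family
`(famA (c4Poly c₄ c₆), famB (c6Poly c₄ c₆))` has no root in `ℚ[t]`. -/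
theorem noPolyRoot_fam (c₄ c₆ : ℤ) (h : c₄ ^ 3 ≠ c₆ ^ 2) :
    NoPolyRoot (famA (c4Poly c₄ c₆)) (famB (c6Poly c₄ c₆)) := by
  have hq : ((c₄ : ℚ)) ^ 3 ≠ (c₆ : ℚ) ^ 2 := by exact_mod_cast h
  have := noPolyRoot_fam_rat (c₄ : ℚ) (c₆ : ℚ) hq
  unfold famA famB
  rw [map_c4Poly, map_c6Poly]
  simpa using this

end Fermat.Agent.S52.B3.H300
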